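import Mathlib

/-!
# Change of variables on a Weierstrass curve: formulas

For `C : VariableChange K` over a field `K`, the curve `C • W` is `W` in the coordinates
`(x, y) = (u² x' + r, u³ y' + u² s x' + t)`.  We show that `(x', y') ↦ (x, y)` maps nonsingular
points of `C • W` to nonsingular points of `W` and is compatible with negation, slopes and the
addition formulas.
-/

set_option autoImplicit false

namespace Fermat.Agent.VarChange

open WeierstrassCurve WeierstrassCurve.Affine

variable {K : Type*} [Field K]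

/-- The `x`-coordinate on `W` of the point with coordinates `(x, y)` on `C • W`. -/
def vcX (C : VariableChange K) (x : K) : K := (C.u : K) ^ 2 * x + C.r

/-- The `y`-coordinate on `W` of the point with coordinates `(x, y)` on `C • W`. -/
def vcY (C : VariableChange K) (x y : K) : K := (C.u : K) ^ 3 * y + (C.u : K) ^ 2 * C.s * x + C.t

variable (C : VariableChange K) (W : WeierstrassCurve K)

theorem vc_u_ne_zero : (C.u : K) ≠ 0 := C.u.ne_zero

theorem vcX_injective : Function.Injective (vcX C) := by
  intro x x' h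
  have hu := vc_u_ne_zero C
  simp only [vcX] at h
  have h2 : (C.u : K) ^ 2 * x = (C.u : K) ^ 2 * x' := add_right_cancel h
  exact mul_left_cancel₀ (pow_ne_zero 2 hu) h2

theorem vcY_injective (x : K) : Function.Injective (vcY C x) := by
  intro y y' h
  have hu := vc_u_ne_zero C
  simp only [vcY] at h
  have h2 : (C.u : K) ^ 3 * y = (C.u : K) ^ 3 * y' := add_right_cancel (add_right_cancel h)
  exact mul_left_cancel₀ (pow_ne_zero 3 hu) h2

/-- The Weierstrass polynomial transforms by the factor `u⁶`. -/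
theorem vc_equation_aux (x y : K) :
    (vcY C x y) ^ 2 + W.a₁ * vcX C x * vcY C x y + W.a₃ * vcY C x y
        - ((vcX C x) ^ 3 + W.a₂ * (vcX C x) ^ 2 + W.a₄ * vcX C x + W.a₆) =
      (C.u : K) ^ 6 * (y ^ 2 + (C • W).a₁ * x * y + (C • W).a₃ * y
        - (x ^ 3 + (C • W).a₂ * x ^ 2 + (C • W).a₄ * x + (C • W).a₆)) := by
  have hu := vc_u_ne_zero C
  simp only [variableChange_a₁, variableChange_a₂, variableChange_a₃, variableChange_a₄,
    variableChange_a₆, Units.val_inv_eq_inv_val, vcX, vcY]
  field_simp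
  ring

theorem vc_equation_iff (x y : K) :
    (C • W).toAffine.Equation x y ↔ W.toAffine.Equation (vcX C x) (vcY C x y) := by
  have hu := vc_u_ne_zero C
  rw [Affine.equation_iff, Affine.equation_iff, ← sub_eq_zero, ← sub_eq_zero (b := _ + _)]
  rw [vc_equation_aux]
  constructor
  · intro h; rw [h, mul_zero]
  · intro h
    rcases mul_eq_zero.mp h with h | h
    · exact absurd h (pow_ne_zero 6 hu)
    · exact h

/-- `∂/∂y`. -/
theorem vc_B (x y : K) :
    2 * vcY C x y + W.a₁ * vcX C x + W.a₃ = (C.u : K) ^ 3 * (2 * y + (C • W).a₁ * x + (C • W).a₃) := by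
  have hu := vc_u_ne_zero C
  simp only [variableChange_a₁, variableChange_a₃, Units.val_inv_eq_inv_val, vcX, vcY]
  field_simp
  ring

/-- `∂/∂x`. -/
theorem vc_A (x y : K) :
    W.a₁ * vcY C x y - (3 * (vcX C x) ^ 2 + 2 * W.a₂ * vcX C x + W.a₄) =
      (C.u : K) ^ 4 * ((C • W).a₁ * y - (3 * x ^ 2 + 2 * (C • W).a₂ * x + (C • W).a₄))
        - C.s * ((C.u : K) ^ 3 * (2 * y + (C • W).a₁ * x + (C • W).a₃)) := by
  have hu := vc_u_ne_zero C
  simp only [variableChange_a₁, variableChange_a₂, variableChange_a₃, variableChange_a₄,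
    Units.val_inv_eq_inv_val, vcX, vcY]
  field_simp
  ring

theorem vc_nonsingular_iff (x y : K) :
    (C • W).toAffine.Nonsingular x y ↔ W.toAffine.Nonsingular (vcX C x) (vcY C x y) := by
  have hu := vc_u_ne_zero C
  rw [Affine.nonsingular_iff', Affine.nonsingular_iff', vc_equation_iff]
  refine and_congr_right fun _ => ?_
  rw [vc_A, vc_B]
  constructor
  · rintro (h | h)
    · by_cases hB : 2 * y + (C • W).a₁ * x + (C • W).a₃ = 0
      · left
        rw [hB, mul_zero, mul_zero, sub_zero]
        exact mul_ne_zero (pow_ne_zero 4 hu) h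
      · right
        exact mul_ne_zero (pow_ne_zero 3 hu) hB
    · right
      exact mul_ne_zero (pow_ne_zero 3 hu) h
  · rintro (h | h)
    · by_cases hB : 2 * y + (C • W).a₁ * x + (C • W).a₃ = 0
      · left
        rw [hB, mul_zero, mul_zero, sub_zero] at h
        exact right_ne_zero_of_mul h
      · right
        exact hB
    · right
      exact right_ne_zero_of_mul h

theorem vc_negY (x y : K) :
    W.toAffine.negY (vcX C x) (vcY C x y) = vcY C x ((C • W).toAffine.negY x y) := by
  have hu := vc_u_ne_zero C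
  simp only [Affine.negY, variableChange_a₁, variableChange_a₃, Units.val_inv_eq_inv_val, vcX, vcY]
  field_simp
  ring

theorem vc_addX (x₁ x₂ L : K) :
    W.toAffine.addX (vcX C x₁) (vcX C x₂) ((C.u : K) * L + C.s) =
      vcX C ((C • W).toAffine.addX x₁ x₂ L) := by
  have hu := vc_u_ne_zero C
  simp only [Affine.addX, variableChange_a₁, variableChange_a₂, Units.val_inv_eq_inv_val, vcX]
  field_simp
  ring

theorem vc_negAddY (x₁ x₂ y₁ L : K) :
    W.toAffine.negAddY (vcX C x₁) (vcX C x₂) (vcY C x₁ y₁) ((C.u : K) * L + C.s) =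
      vcY C ((C • W).toAffine.addX x₁ x₂ L) ((C • W).toAffine.negAddY x₁ x₂ y₁ L) := by
  have hu := vc_u_ne_zero C
  rw [Affine.negAddY, vc_addX]
  simp only [Affine.negAddY, vcX, vcY]
  ring

theorem vc_addY (x₁ x₂ y₁ L : K) :
    W.toAffine.addY (vcX C x₁) (vcX C x₂) (vcY C x₁ y₁) ((C.u : K) * L + C.s) =
      vcY C ((C • W).toAffine.addX x₁ x₂ L) ((C • W).toAffine.addY x₁ x₂ y₁ L) := by
  rw [Affine.addY, vc_negAddY, vc_addX, vc_negY]
  rfl

end Fermat.Agent.VarChange
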