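import Mathlib
import Fermat.Agent.Lib.VarChange.Formula

/-!
# Change of variables on a Weierstrass curve: the group homomorphism on points

For curves `W₁`, `W₂` over a field `K` with `W₂ = C • W₁`, the map
`(x, y) ↦ (u² x + r, u³ y + u² s x + t)` is an injective group homomorphism
`vcHom : W₂.Point →+ W₁.Point`.
-/

set_option autoImplicit false
set_option linter.unusedSectionVars false

namespace Fermat.Agent.VarChange

open WeierstrassCurve WeierstrassCurve.Affine

variable {K : Type*} [Field K] [DecidableEq K]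

section Slope

variable (C : VariableChange K) (W : WeierstrassCurve K)

theorem vc_slope {x₁ x₂ y₁ y₂ : K} (h₁ : (C • W).toAffine.Equation x₁ y₁)
    (h₂ : (C • W).toAffine.Equation x₂ y₂)
    (hxy : ¬(x₁ = x₂ ∧ y₁ = (C • W).toAffine.negY x₂ y₂)) :
    W.toAffine.slope (vcX C x₁) (vcX C x₂) (vcY C x₁ y₁) (vcY C x₂ y₂) =
      (C.u : K) * (C • W).toAffine.slope x₁ x₂ y₁ y₂ + C.s := by
  have hu := vc_u_ne_zero C
  by_cases hx : x₁ = x₂
  · subst hx
    have hy : y₁ ≠ (C • W).toAffine.negY x₁ y₂ := fun h => hxy ⟨rfl, h⟩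
    have hyy : y₁ = y₂ := Affine.Y_eq_of_Y_ne h₁ h₂ rfl hy
    subst hyy
    have hy' : vcY C x₁ y₁ ≠ W.toAffine.negY (vcX C x₁) (vcY C x₁ y₁) := by
      rw [vc_negY]
      exact fun h => hy (vcY_injective C x₁ h)
    rw [Affine.slope_of_Y_ne rfl hy, Affine.slope_of_Y_ne rfl hy']
    have hB := vc_B C W x₁ y₁
    have hA := vc_A C W x₁ y₁
    have hden' : y₁ - (C • W).toAffine.negY x₁ y₁ = 2 * y₁ + (C • W).a₁ * x₁ + (C • W).a₃ := by
      simp only [Affine.negY]; ring
    have hden : vcY C x₁ y₁ - W.toAffine.negY (vcX C x₁) (vcY C x₁ y₁) =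
        2 * vcY C x₁ y₁ + W.a₁ * vcX C x₁ + W.a₃ := by
      simp only [Affine.negY]; ring
    have hne' : 2 * y₁ + (C • W).a₁ * x₁ + (C • W).a₃ ≠ 0 := by
      rw [← hden']
      exact sub_ne_zero.mpr hy
    have hne : (C.u : K) ^ 3 * (2 * y₁ + (C • W).a₁ * x₁ + (C • W).a₃) ≠ 0 :=
      mul_ne_zero (pow_ne_zero 3 hu) hne'
    have hnum : 3 * (vcX C x₁) ^ 2 + 2 * W.a₂ * vcX C x₁ + W.a₄ - W.a₁ * vcY C x₁ y₁ =
        (C.u : K) ^ 4 * (3 * x₁ ^ 2 + 2 * (C • W).a₂ * x₁ + (C • W).a₄ - (C • W).a₁ * y₁)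
          + C.s * ((C.u : K) ^ 3 * (2 * y₁ + (C • W).a₁ * x₁ + (C • W).a₃)) := by
      linear_combination -hA
    rw [hden, hden', hB, hnum]
    generalize 2 * y₁ + (C • W).a₁ * x₁ + (C • W).a₃ = B' at hne hne'
    generalize 3 * x₁ ^ 2 + 2 * (C • W).a₂ * x₁ + (C • W).a₄ - (C • W).a₁ * y₁ = N'
    field_simp
  · have hx' : vcX C x₁ ≠ vcX C x₂ := fun h => hx (vcX_injective C h)
    rw [Affine.slope_of_X_ne hx, Affine.slope_of_X_ne hx']
    have h1 : x₁ - x₂ ≠ 0 := sub_ne_zero.mpr hx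
    have h2 : vcX C x₁ - vcX C x₂ ≠ 0 := sub_ne_zero.mpr hx'
    rw [div_eq_iff h2]
    simp only [vcX, vcY]
    field_simp
    ring

end Slope

section Hom

variable {W₁ W₂ : Affine K} (C : VariableChange K) (h : W₂ = C • W₁)

omit [DecidableEq K] in
include h in
theorem vc_nonsingular_of_eq {x y : K} (hxy : W₂.Nonsingular x y) :
    W₁.Nonsingular (vcX C x) (vcY C x y) := by
  subst h
  exact (vc_nonsingular_iff C W₁ x y).mp hxy

/-- The map on points induced by a change of variables. -/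
def vcFun : W₂.Point → W₁.Point
  | .zero => .zero
  | .some x y hxy => .some (vcX C x) (vcY C x y) (vc_nonsingular_of_eq C h hxy)

@[simp] theorem vcFun_zero : vcFun C h (0 : W₂.Point) = 0 := rfl

@[simp] theorem vcFun_some {x y : K} (hxy : W₂.Nonsingular x y) :
    vcFun C h (.some x y hxy) = .some (vcX C x) (vcY C x y) (vc_nonsingular_of_eq C h hxy) := rfl

theorem vcFun_injective : Function.Injective (vcFun C h) := by
  rintro (_ | ⟨x, y, hxy⟩) (_ | ⟨x', y', hxy'⟩) hPQ
  · rfl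
  · exact absurd hPQ (by simp [vcFun])
  · exact absurd hPQ (by simp [vcFun])
  · simp only [vcFun, Point.some.injEq] at hPQ
    obtain ⟨hx, hy⟩ := hPQ
    have hx' := vcX_injective C hx
    subst hx'
    have hy' := vcY_injective C x hy
    subst hy'
    rfl

theorem vcFun_add (P Q : W₂.Point) : vcFun C h (P + Q) = vcFun C h P + vcFun C h Q := by
  subst h
  rcases P with _ | ⟨x₁, y₁, h₁⟩
  · change vcFun C rfl (0 + Q) = 0 + vcFun C rfl Q
    rw [zero_add, zero_add]
  rcases Q with _ | ⟨x₂, y₂, h₂⟩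
  · change vcFun C rfl (Point.some x₁ y₁ h₁ + 0) = vcFun C rfl (Point.some x₁ y₁ h₁) + 0
    rw [add_zero, add_zero]
  by_cases hxy : x₁ = x₂ ∧ y₁ = (C • W₁).toAffine.negY x₂ y₂
  · obtain ⟨hx, hy⟩ := hxy
    rw [Point.add_of_Y_eq hx hy, vcFun_zero, vcFun_some, vcFun_some]
    symm
    apply Point.add_of_Y_eq
    · rw [hx]
    · rw [vc_negY, hy, hx]
  · have hxy' : ¬(vcX C x₁ = vcX C x₂ ∧
        vcY C x₁ y₁ = W₁.toAffine.negY (vcX C x₂) (vcY C x₂ y₂)) := by
      rintro ⟨hx, hy⟩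
      have hx' := vcX_injective C hx
      subst hx'
      rw [vc_negY] at hy
      exact hxy ⟨rfl, vcY_injective C x₁ hy⟩
    rw [Point.add_some hxy, vcFun_some, vcFun_some, vcFun_some, Point.add_some hxy']
    simp only [Point.some.injEq]
    rw [vc_slope C W₁ h₁.1 h₂.1 hxy]
    exact ⟨(vc_addX C W₁ x₁ x₂ _).symm, (vc_addY C W₁ x₁ x₂ y₁ _).symm⟩

/-- The injective group homomorphism on points induced by a change of variables. -/
def vcHom : W₂.Point →+ W₁.Point where
  toFun := vcFun C h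
  map_zero' := rfl
  map_add' := vcFun_add C h

@[simp] theorem vcHom_apply (P : W₂.Point) : vcHom C h P = vcFun C h P := rfl

theorem vcHom_injective : Function.Injective (vcHom C h) := vcFun_injective C h

end Hom

end Fermat.Agent.VarChange
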